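import Mathlib

/-!
Pure algebra for the coset interpolation argument (project S22/S23).

* `lagrange_identity` : for `Φ = ∏ i, (X - C (x i))`,
  `y i₀ * ∏_{i ≠ i₀} (x i₀ - x i) = ∑_{a < μ} (x i₀)^a * ∑_{j ∈ [a+1, μ]} Φ_j * ∑ i, y i * (x i)^(j-a-1)`.
* `derivative_eval_eq` : `Φ'(x i₀) = ∏_{i ≠ i₀} (x i₀ - x i)`.
* `vandermonde_vanish` : if the `x i` are pairwise distinct and `∑_{a<μ} g a * (x i)^a = 0`
  for all `i` then all `g a = 0`.
-/

set_option autoImplicit false

open Polynomial Finset

namespace Fermat.Agent.S23.Interp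

section Lagrange

variable {R : Type*} [CommRing R] {ι : Type*} [Fintype ι]

/-- The polynomial `∏ i, (X - C (x i))`. -/
noncomputable def rootPoly (x : ι → R) : R[X] := ∏ i, (X - C (x i))

lemma rootPoly_monic (x : ι → R) : (rootPoly x).Monic :=
  monic_prod_of_monic _ _ fun i _ => monic_X_sub_C (x i)

lemma rootPoly_natDegree [Nontrivial R] (x : ι → R) :
    (rootPoly x).natDegree = Fintype.card ι := by
  unfold rootPoly
  rw [natDegree_prod_of_monic _ _ fun i _ => monic_X_sub_C (x i)]
  simp

lemma rootPoly_eval_self (x : ι → R) (i : ι) : (rootPoly x).eval (x i) = 0 := by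
  unfold rootPoly
  rw [eval_prod]
  exact Finset.prod_eq_zero (Finset.mem_univ i) (by simp)

lemma rootPoly_eq_mul_erase [DecidableEq ι] (x : ι → R) (i : ι) :
    rootPoly x = (X - C (x i)) * ∏ j ∈ univ.erase i, (X - C (x j)) := by
  unfold rootPoly
  exact (Finset.mul_prod_erase univ (fun j => X - C (x j)) (Finset.mem_univ i)).symm

lemma rootPoly_divByMonic [DecidableEq ι] (x : ι → R) (i : ι) :
    rootPoly x /ₘ (X - C (x i)) = ∏ j ∈ univ.erase i, (X - C (x j)) := by
  rw [rootPoly_eq_mul_erase x i, mul_divByMonic_cancel_left _ (monic_X_sub_C (x i))]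

lemma coeff_rootPoly_card [Nontrivial R] (x : ι → R) :
    (rootPoly x).coeff (Fintype.card ι) = 1 := by
  have h := rootPoly_monic x
  rw [Monic, leadingCoeff, rootPoly_natDegree] at h
  exact h

lemma coeff_rootPoly_of_lt [Nontrivial R] (x : ι → R) {j : ℕ} (hj : Fintype.card ι < j) :
    (rootPoly x).coeff j = 0 :=
  coeff_eq_zero_of_natDegree_lt (by rw [rootPoly_natDegree]; exact hj)

/-- Vieta: coefficients of `rootPoly` as signed elementary symmetric sums. -/
lemma coeff_rootPoly (x : ι → R) {j : ℕ} (hj : j ≤ Fintype.card ι) :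
    (rootPoly x).coeff j =
      (-1) ^ (Fintype.card ι - j) *
        ∑ t ∈ (univ : Finset ι).powersetCard (Fintype.card ι - j), ∏ i ∈ t, x i := by
  have h := Finset.prod_X_add_C_coeff (univ : Finset ι) (fun i => - x i)
    (k := j) (by simpa using hj)
  have h2 : rootPoly x = ∏ i, (X + C (- x i)) := by
    unfold rootPoly
    refine Finset.prod_congr rfl fun i _ => ?_
    rw [C_neg, sub_eq_add_neg]
  rw [h2, h, Finset.card_univ, Finset.mul_sum]
  refine Finset.sum_congr rfl fun t ht => ?_
  rw [Finset.prod_neg, (Finset.mem_powersetCard.mp ht).2]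

/-- The "other roots" product `∏_{i ≠ i₀} (x i₀ - x i)`. -/
def otherProd [DecidableEq ι] (x : ι → R) (i₀ : ι) : R := ∏ i ∈ univ.erase i₀, (x i₀ - x i)

lemma eval_erase_prod [DecidableEq ι] (x : ι → R) (i i₀ : ι) :
    (∏ j ∈ univ.erase i, (X - C (x j))).eval (x i₀) = if i = i₀ then otherProd x i₀ else 0 := by
  rw [eval_prod]
  split_ifs with h
  · subst h
    simp [otherProd]
  · refine Finset.prod_eq_zero (i := i₀) ?_ (by simp)
    simp [Ne.symm h]

/-- **Lagrange interpolation in trace form**. -/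
theorem lagrange_identity [DecidableEq ι] [Nontrivial R] (x y : ι → R) (i₀ : ι) :
    y i₀ * otherProd x i₀ =
      ∑ a ∈ range (Fintype.card ι), (x i₀) ^ a *
        ∑ j ∈ Icc (a + 1) (Fintype.card ι), (rootPoly x).coeff j *
          ∑ i, y i * (x i) ^ (j - (a + 1)) := by
  set μ := Fintype.card ι with hμ
  -- sum over i of y i * (quotient polynomial evaluated at x i₀)
  have key : ∀ i, (∏ j ∈ univ.erase i, (X - C (x j))).eval (x i₀) =
      ∑ a ∈ range μ, (∑ j ∈ Icc (a + 1) μ, (x i) ^ (j - (a + 1)) * (rootPoly x).coeff j)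
        * (x i₀) ^ a := by
    intro i
    have hdeg : (∏ j ∈ univ.erase i, (X - C (x j))).natDegree < μ := by
      rw [natDegree_prod_of_monic _ _ fun j _ => monic_X_sub_C (x j)]
      simp only [natDegree_X_sub_C, sum_const, smul_eq_mul, mul_one]
      rw [Finset.card_erase_of_mem (Finset.mem_univ i), Finset.card_univ]
      have : 0 < Fintype.card ι := Fintype.card_pos_iff.mpr ⟨i⟩
      omega
    rw [eval_eq_sum_range' hdeg]
    refine Finset.sum_congr rfl fun a _ => ?_
    rw [← rootPoly_divByMonic x i, coeff_divByMonic_X_sub_C, rootPoly_natDegree]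
  have h1 : y i₀ * otherProd x i₀ =
      ∑ i, y i * (∏ j ∈ univ.erase i, (X - C (x j))).eval (x i₀) := by
    simp_rw [eval_erase_prod]
    simp
  rw [h1]
  calc ∑ i, y i * (∏ j ∈ univ.erase i, (X - C (x j))).eval (x i₀)
      = ∑ i, ∑ a ∈ range μ, ∑ j ∈ Icc (a + 1) μ,
          (x i₀) ^ a * ((rootPoly x).coeff j * (y i * (x i) ^ (j - (a + 1)))) := by
        refine Finset.sum_congr rfl fun i _ => ?_
        rw [key, Finset.mul_sum]
        refine Finset.sum_congr rfl fun a _ => ?_
        rw [Finset.sum_mul, Finset.mul_sum]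
        refine Finset.sum_congr rfl fun j _ => ?_
        ring
    _ = ∑ a ∈ range μ, ∑ i, ∑ j ∈ Icc (a + 1) μ,
          (x i₀) ^ a * ((rootPoly x).coeff j * (y i * (x i) ^ (j - (a + 1)))) :=
        Finset.sum_comm
    _ = _ := by
        refine Finset.sum_congr rfl fun a _ => ?_
        rw [Finset.sum_comm, Finset.mul_sum]
        refine Finset.sum_congr rfl fun j _ => ?_
        rw [Finset.mul_sum, Finset.mul_sum]

/-- `Φ'(x i₀) = ∏_{i ≠ i₀} (x i₀ - x i)`. -/
theorem derivative_eval_eq [DecidableEq ι] (x : ι → R) (i₀ : ι) :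
    (derivative (rootPoly x)).eval (x i₀) = otherProd x i₀ := by
  rw [rootPoly_eq_mul_erase x i₀, derivative_mul, eval_add, eval_mul, eval_mul]
  simp only [derivative_sub, derivative_X, derivative_C, sub_zero, eval_one, one_mul, eval_sub,
    eval_X, eval_C, sub_self, zero_mul, add_zero]
  rw [eval_prod, otherProd]
  simp

/-- `Φ'(x i₀)` as an explicit sum `∑ j, j * Φ_j * (x i₀)^(j-1)`. -/
theorem otherProd_eq_sum [DecidableEq ι] [Nontrivial R] (x : ι → R) (i₀ : ι) :
    otherProd x i₀ =
      ∑ j ∈ range (Fintype.card ι + 1), (j : R) * (rootPoly x).coeff j * (x i₀) ^ (j - 1) := by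
  rw [← derivative_eval_eq, derivative_eval,
    sum_over_range' _ (by intro n; simp) (Fintype.card ι + 1)
      (by rw [rootPoly_natDegree]; exact Nat.lt_succ_self _)]
  refine Finset.sum_congr rfl fun j _ => ?_
  ring

end Lagrange

section Vandermonde

/-- If the `x i` are pairwise distinct and `∑_{a<μ} g a * (x i)^a = 0` for all `i` (`μ` the number
of points), then all `g a` with `a < μ` vanish. -/
theorem vandermonde_vanish {K : Type*} [CommRing K] [IsDomain K] {ι : Type*} [Fintype ι]
    (x : ι → K) (hx : Function.Injective x) (g : ℕ → K)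
    (h : ∀ i, ∑ a ∈ range (Fintype.card ι), g a * (x i) ^ a = 0) :
    ∀ a < Fintype.card ι, g a = 0 := by
  intro a ha
  set μ := Fintype.card ι with hμ
  set p : K[X] := ∑ b ∈ range μ, C (g b) * X ^ b with hp
  have hdeg : p.natDegree < μ := by
    have h1 : p.degree < (μ : WithBot ℕ) := by
      rw [degree_lt_iff_coeff_zero]
      intro m hm
      rw [hp, finsetSum_coeff]
      refine Finset.sum_eq_zero fun b hb => ?_
      rw [coeff_C_mul_X_pow, if_neg]
      have := Finset.mem_range.mp hb
      omega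
    by_cases hp0 : p = 0
    · rw [hp0, natDegree_zero]; exact lt_of_le_of_lt (Nat.zero_le a) ha
    · exact (natDegree_lt_iff_degree_lt hp0).mpr h1
  have heval : ∀ i, p.eval (x i) = 0 := by
    intro i
    rw [hp, eval_finsetSum]
    simpa using h i
  have hzero : p = 0 := eq_zero_of_natDegree_lt_card_of_eval_eq_zero p hx heval hdeg
  have hcoeff : p.coeff a = g a := by
    rw [hp, finsetSum_coeff]
    simp_rw [coeff_C_mul_X_pow]
    rw [Finset.sum_eq_single a]
    · simp
    · intro b _ hba
      simp [hba.symm]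
    · intro h'
      exact absurd (Finset.mem_range.mpr ha) h'
  rw [← hcoeff, hzero, coeff_zero]

end Vandermonde

end Fermat.Agent.S23.Interp
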