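import Mathlib
import Fermat.Agent.S23.Interp.Algebra

/-!
Coset-symmetric functions of a modular form as level-one modular forms (project S22/S23).

For `f` a modular form for an arithmetic subgroup `𝒢` and `𝒬 = 𝒮ℒ ⧸ 𝒢`, Mathlib's
`SlashInvariantForm.quotientFunc f q` are the conjugates `f ∣ r⁻¹`.  We package
* `mkLevelOne`, `mkLevelOneCusp` : constructors for level-one forms from invariant functions,
* `esymmFun f i` : the `i`-th elementary symmetric function of the conjugates, together with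
  `esymmForm f i : ModularForm 𝒮ℒ (k * i)` and, for cusp forms and `0 < i`,
  `esymmCusp f i : CuspForm 𝒮ℒ (k * i)`.
-/

set_option autoImplicit false

open UpperHalfPlane ModularForm SlashInvariantForm Filter Matrix.SpecialLinearGroup
open scoped MatrixGroups ModularForm Manifold Topology

namespace Fermat.Agent.S23.Interp

/-- Build a level-one modular form from a holomorphic `SL(2,ℤ)`-invariant function bounded at
`i∞`. -/
noncomputable def mkLevelOne (G : ℍ → ℂ) (k : ℤ) (hinv : ∀ γ : SL(2, ℤ), G ∣[k] γ = G)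
    (hol : MDiff G) (hbd : IsBoundedAtImInfty G) : ModularForm 𝒮ℒ k where
  toFun := G
  slash_action_eq' := by
    rintro _ ⟨γ, rfl⟩
    exact hinv γ
  holo' := hol
  bdd_at_cusps' {c} hc := by
    rw [OnePoint.isBoundedAt_iff_exists_SL2Z hc]
    obtain ⟨γ, rfl⟩ := isCusp_SL2Z_iff'.mp hc
    exact ⟨γ, rfl, by rw [hinv γ]; exact hbd⟩

@[simp] lemma coe_mkLevelOne (G : ℍ → ℂ) (k : ℤ) (hinv : ∀ γ : SL(2, ℤ), G ∣[k] γ = G)
    (hol : MDiff G) (hbd : IsBoundedAtImInfty G) : ⇑(mkLevelOne G k hinv hol hbd) = G := rfl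

/-- Build a level-one cusp form from a holomorphic `SL(2,ℤ)`-invariant function vanishing at
`i∞`. -/
noncomputable def mkLevelOneCusp (G : ℍ → ℂ) (k : ℤ) (hinv : ∀ γ : SL(2, ℤ), G ∣[k] γ = G)
    (hol : MDiff G) (hz : IsZeroAtImInfty G) : CuspForm 𝒮ℒ k where
  toFun := G
  slash_action_eq' := by
    rintro _ ⟨γ, rfl⟩
    exact hinv γ
  holo' := hol
  zero_at_cusps' {c} hc := by
    rw [OnePoint.isZeroAt_iff_exists_SL2Z hc]
    obtain ⟨γ, rfl⟩ := isCusp_SL2Z_iff'.mp hc
    exact ⟨γ, rfl, by rw [hinv γ]; exact hz⟩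

@[simp] lemma coe_mkLevelOneCusp (G : ℍ → ℂ) (k : ℤ) (hinv : ∀ γ : SL(2, ℤ), G ∣[k] γ = G)
    (hol : MDiff G) (hz : IsZeroAtImInfty G) : ⇑(mkLevelOneCusp G k hinv hol hz) = G := rfl

lemma sum_powersetCard_prod_comp_equiv {ι M : Type*} [Fintype ι] [CommSemiring M]
    (e : ι ≃ ι) (x : ι → M) (i : ℕ) :
    ∑ t ∈ (Finset.univ : Finset ι).powersetCard i, ∏ q ∈ t, x (e q) =
      ∑ t ∈ (Finset.univ : Finset ι).powersetCard i, ∏ q ∈ t, x q := by
  classical
  have h := Finset.powersetCard_map e.toEmbedding i Finset.univ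
  rw [Finset.map_univ_equiv] at h
  conv_rhs => rw [h, Finset.sum_map]
  refine Finset.sum_congr rfl fun t _ => ?_
  simp [Finset.prod_map]

variable {𝒢 : Subgroup (GL (Fin 2) ℝ)} {F : Type*} [FunLike F ℍ ℂ] {k : ℤ}

local notation "𝒬" => 𝒮ℒ ⧸ (𝒢.subgroupOf 𝒮ℒ)

/-- The element of `𝒮ℒ` attached to `γ : SL(2,ℤ)`. -/
def toSL (γ : SL(2, ℤ)) : 𝒮ℒ := ⟨mapGL ℝ γ, ⟨γ, rfl⟩⟩

lemma exists_toSL (h : 𝒮ℒ) : ∃ γ : SL(2, ℤ), h = toSL γ := by
  obtain ⟨h, γ, rfl⟩ := h
  exact ⟨γ, rfl⟩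

@[simp] lemma toSL_one : toSL 1 = 1 := by
  apply Subtype.ext
  simp [toSL]

lemma quotientFunc_toSL [SlashInvariantFormClass F 𝒢 k] (f : F) (γ : SL(2, ℤ)) :
    quotientFunc f (⟦toSL γ⟧ : 𝒬) = (f : ℍ → ℂ) ∣[k] γ⁻¹ := by
  rw [quotientFunc_mk, SL_slash, map_inv]
  rfl

/-- The conjugate attached to the trivial coset is the form itself. -/
lemma quotientFunc_one [SlashInvariantFormClass F 𝒢 k] (f : F) :
    quotientFunc f (⟦(1 : 𝒮ℒ)⟧ : 𝒬) = (f : ℍ → ℂ) := by
  rw [quotientFunc_mk]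
  simp

lemma quotientFunc_slash_SL [SlashInvariantFormClass F 𝒢 k] (f : F) (γ : SL(2, ℤ)) (q : 𝒬) :
    quotientFunc f q ∣[k] γ = quotientFunc f ((toSL γ)⁻¹ • q) := by
  rw [SL_slash]
  exact quotientFunc_smul f (toSL γ).2 q

lemma mdiff_quotientFunc [ModularFormClass F 𝒢 k] (f : F) (q : 𝒬) :
    MDiff (quotientFunc f q) := by
  induction q using Quotient.inductionOn with
  | h r =>
    rw [quotientFunc_mk]
    exact (ModularFormClass.holo f).slash k _

variable [𝒢.IsArithmetic]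

lemma isBoundedAtImInfty_quotientFunc [ModularFormClass F 𝒢 k] (f : F) (q : 𝒬) :
    IsBoundedAtImInfty (quotientFunc f q) := by
  induction q using Quotient.inductionOn with
  | h r =>
    obtain ⟨γ, rfl⟩ := exists_toSL r
    rw [quotientFunc_toSL]
    exact ModularFormClass.bdd_at_infty_slash f γ⁻¹

lemma isZeroAtImInfty_quotientFunc [CuspFormClass F 𝒢 k] (f : F) (q : 𝒬) :
    IsZeroAtImInfty (quotientFunc f q) := by
  induction q using Quotient.inductionOn with
  | h r =>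
    obtain ⟨γ, rfl⟩ := exists_toSL r
    rw [quotientFunc_toSL]
    exact CuspFormClass.zero_at_infty_slash f γ⁻¹

/-- The (noncomputable) `Fintype` structure on the coset space used throughout. -/
noncomputable instance instFintypeQ : Fintype 𝒬 := Fintype.ofFinite _

/-- `i`-th elementary symmetric function of the conjugates of `f`. -/
noncomputable def esymmFun [SlashInvariantFormClass F 𝒢 k] (f : F) (i : ℕ) : ℍ → ℂ :=
  ∑ t ∈ (Finset.univ : Finset 𝒬).powersetCard i, ∏ q ∈ t, quotientFunc f q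

lemma esymmFun_apply [SlashInvariantFormClass F 𝒢 k] (f : F) (i : ℕ) (τ : ℍ) :
    esymmFun f i τ =
      ∑ t ∈ (Finset.univ : Finset 𝒬).powersetCard i, ∏ q ∈ t, quotientFunc f q τ := by
  simp [esymmFun, Finset.sum_apply, Finset.prod_apply]

lemma esymmFun_zero [SlashInvariantFormClass F 𝒢 k] (f : F) : esymmFun f 0 = 1 := by
  simp [esymmFun]

lemma esymmFun_slash [SlashInvariantFormClass F 𝒢 k] (f : F) (i : ℕ) (γ : SL(2, ℤ)) :
    esymmFun f i ∣[k * i] γ = esymmFun f i := by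
  classical
  unfold esymmFun
  rw [SlashAction.sum_slash]
  have h1 : ∀ t ∈ (Finset.univ : Finset 𝒬).powersetCard i,
      (∏ q ∈ t, quotientFunc f q) ∣[k * i] γ = ∏ q ∈ t, quotientFunc f ((toSL γ)⁻¹ • q) := by
    intro t ht
    rw [← (Finset.mem_powersetCard.mp ht).2, SL_slash, ModularForm.prod_slash]
    have hdet : |((γ : GL (Fin 2) ℝ)).det.val| = 1 :=
      Subgroup.HasDetPlusMinusOne.abs_det (Γ := 𝒮ℒ) ⟨γ, rfl⟩
    rw [hdet, one_zpow, one_smul]
    refine Finset.prod_congr rfl fun q _ => ?_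
    rw [← SL_slash, quotientFunc_slash_SL]
  rw [Finset.sum_congr rfl h1]
  exact sum_powersetCard_prod_comp_equiv (MulAction.toPerm (toSL γ)⁻¹) (quotientFunc f) i

lemma mdiff_esymmFun [ModularFormClass F 𝒢 k] (f : F) (i : ℕ) : MDiff (esymmFun f i) := by
  unfold esymmFun
  refine MDifferentiable.sum fun t _ => ?_
  exact MDifferentiable.prod fun q _ => mdiff_quotientFunc f q

lemma isBoundedAtImInfty_esymmFun [ModularFormClass F 𝒢 k] (f : F) (i : ℕ) :
    IsBoundedAtImInfty (esymmFun f i) := by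
  unfold esymmFun
  refine (boundedFilterSubmodule ℂ atImInfty).sum_mem fun t _ => ?_
  exact BoundedAtFilter.prod t fun q _ => isBoundedAtImInfty_quotientFunc f q

lemma isZeroAtImInfty_esymmFun_of [SlashInvariantFormClass F 𝒢 k] (f : F)
    (hf : ∀ q : 𝒬, IsZeroAtImInfty (quotientFunc f q)) {i : ℕ} (hi : 0 < i) :
    IsZeroAtImInfty (esymmFun f i) := by
  unfold esymmFun
  rw [IsZeroAtImInfty, ZeroAtFilter]
  have : (0 : ℂ) = ∑ _t ∈ (Finset.univ : Finset 𝒬).powersetCard i, (0 : ℂ) := by simp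
  rw [this]
  simp_rw [Finset.sum_fn]
  refine tendsto_finsetSum _ fun t ht => ?_
  have hcard : t.card = i := (Finset.mem_powersetCard.mp ht).2
  have hne : t.Nonempty := Finset.card_pos.mp (hcard ▸ hi)
  have h0 : (0 : ℂ) = ∏ _q ∈ t, (0 : ℂ) := by
    rw [Finset.prod_const, zero_pow]
    exact (hcard ▸ hi).ne'
  rw [h0]
  simp_rw [Finset.prod_fn]
  exact tendsto_finsetProd _ fun q _ => hf q

lemma isZeroAtImInfty_esymmFun [CuspFormClass F 𝒢 k] (f : F) {i : ℕ} (hi : 0 < i) :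
    IsZeroAtImInfty (esymmFun f i) :=
  isZeroAtImInfty_esymmFun_of f (isZeroAtImInfty_quotientFunc f) hi

/-- The `i`-th elementary symmetric function of the conjugates, as a level-one modular form. -/
noncomputable def esymmForm [ModularFormClass F 𝒢 k] (f : F) (i : ℕ) : ModularForm 𝒮ℒ (k * i) :=
  mkLevelOne (esymmFun f i) (k * i) (esymmFun_slash f i) (mdiff_esymmFun f i)
    (isBoundedAtImInfty_esymmFun f i)

@[simp] lemma coe_esymmForm [ModularFormClass F 𝒢 k] (f : F) (i : ℕ) :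
    ⇑(esymmForm f i) = esymmFun f i := rfl

/-- The `i`-th elementary symmetric function (`0 < i`) of the conjugates of a cusp form,
as a level-one cusp form. -/
noncomputable def esymmCusp [CuspFormClass F 𝒢 k] (f : F) (i : ℕ) (hi : 0 < i) :
    CuspForm 𝒮ℒ (k * i) :=
  mkLevelOneCusp (esymmFun f i) (k * i) (esymmFun_slash f i) (mdiff_esymmFun f i)
    (isZeroAtImInfty_esymmFun f hi)

@[simp] lemma coe_esymmCusp [CuspFormClass F 𝒢 k] (f : F) (i : ℕ) (hi : 0 < i) :
    ⇑(esymmCusp f i hi) = esymmFun f i := rfl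

end Fermat.Agent.S23.Interp
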