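import Mathlib
import Fermat.Agent.S23.Interp.Esymm

/-!
Coset interpolation (project S22/S23): for `u` a modular form of weight `w` and `f` a form of
weight `k` on an arithmetic group `𝒢`, with `μ = [SL(2,ℤ) : 𝒢]`, `Φ = ∏_q (X - u_q) = ∑ φ_j X^j`:

* `phiFun u j` (level-one, weight `w * (μ - j)`) : coefficients of `Φ`;
* `trPowFun u f b` (level-one, weight `k + w * b`) : `∑_q f_q u_q^b`;
* `cFun u f a` (level-one, weight `k + w * (μ - 1 - a)`) : `∑_j φ_j * Tr(f u^(j-a-1))`;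
* `dFun u = Φ'(u) = ∏_{q ≠ 1} (u - u_q)`;
* `interp_identity : f * dFun u = ∑_{a<μ} u^a * cFun u f a`;
* `charpoly_identity : ∑_{j ≤ μ} phiFun f j * f^j = 0`, `phiFun f μ = 1`.
-/

set_option autoImplicit false

open UpperHalfPlane ModularForm SlashInvariantForm Filter Matrix.SpecialLinearGroup Polynomial
open Finset
open scoped MatrixGroups ModularForm Manifold Topology

namespace Fermat.Agent.S23.Interp

variable {𝒢 : Subgroup (GL (Fin 2) ℝ)} {F U : Type*} [FunLike F ℍ ℂ] [FunLike U ℍ ℂ] {k w : ℤ}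

local notation "𝒬" => 𝒮ℒ ⧸ (𝒢.subgroupOf 𝒮ℒ)

lemma pow_slash_SL2 (g : ℍ → ℂ) (w : ℤ) (b : ℕ) (γ : SL(2, ℤ)) :
    (g ^ b) ∣[w * b] γ = (g ∣[w] γ) ^ b := by
  induction b with
  | zero => simpa using is_invariant_one γ
  | succ b ih =>
    rw [pow_succ, pow_succ, ← ih, ← mul_slash_SL2]
    congr 1
    push_cast
    ring

variable [𝒢.IsArithmetic]

/-- The index `[SL(2,ℤ) : 𝒢]`, as the cardinality of the coset space. -/
noncomputable def idx (𝒢 : Subgroup (GL (Fin 2) ℝ)) [𝒢.IsArithmetic] : ℕ :=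
  Fintype.card (𝒮ℒ ⧸ (𝒢.subgroupOf 𝒮ℒ))

lemma idx_pos : 0 < idx 𝒢 := Fintype.card_pos

lemma idx_eq_natCard : idx 𝒢 = Nat.card 𝒬 := (Nat.card_eq_fintype_card).symm

/-- The tuple of values of the conjugates at a point. -/
noncomputable def conjVals [SlashInvariantFormClass U 𝒢 w] (u : U) (τ : ℍ) : 𝒬 → ℂ :=
  fun q => quotientFunc u q τ

lemma conjVals_one [SlashInvariantFormClass U 𝒢 w] (u : U) (τ : ℍ) :
    conjVals u τ (⟦(1 : 𝒮ℒ)⟧ : 𝒬) = u τ := by
  rw [conjVals, quotientFunc_one]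

/-! ### The coefficients of `Φ` -/

/-- The coefficient functions of `Φ = ∏_q (X - u_q)`. -/
noncomputable def phiFun [SlashInvariantFormClass U 𝒢 w] (u : U) (j : ℕ) : ℍ → ℂ :=
  (-1 : ℂ) ^ (idx 𝒢 - j) • esymmFun u (idx 𝒢 - j)

lemma phiFun_apply [SlashInvariantFormClass U 𝒢 w] (u : U) {j : ℕ} (hj : j ≤ idx 𝒢) (τ : ℍ) :
    phiFun u j τ = (rootPoly (conjVals u τ)).coeff j := by
  rw [coeff_rootPoly _ hj, phiFun, Pi.smul_apply, esymmFun_apply, smul_eq_mul]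
  rfl

lemma phiFun_idx [SlashInvariantFormClass U 𝒢 w] (u : U) : phiFun u (idx 𝒢) = 1 := by
  simp [phiFun, esymmFun_zero]

lemma phiFun_slash [SlashInvariantFormClass U 𝒢 w] (u : U) (j : ℕ) (γ : SL(2, ℤ)) :
    phiFun u j ∣[w * ((idx 𝒢 - j : ℕ) : ℤ)] γ = phiFun u j := by
  rw [phiFun, SL_smul_slash, esymmFun_slash]

lemma mdiff_phiFun [ModularFormClass U 𝒢 w] (u : U) (j : ℕ) : MDiff (phiFun u j) := by
  unfold phiFun
  exact (mdiff_esymmFun u _).const_smul _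

lemma isBoundedAtImInfty_phiFun [ModularFormClass U 𝒢 w] (u : U) (j : ℕ) :
    IsBoundedAtImInfty (phiFun u j) := by
  unfold phiFun
  exact (isBoundedAtImInfty_esymmFun u _).smul _

lemma isZeroAtImInfty_phiFun [CuspFormClass F 𝒢 k] (f : F) {j : ℕ} (hj : j < idx 𝒢) :
    IsZeroAtImInfty (phiFun f j) := by
  unfold phiFun
  exact (isZeroAtImInfty_esymmFun f (Nat.sub_pos_of_lt hj)).smul _

/-- The `j`-th coefficient of `∏_q (X - u_q)` as a level-one modular form. -/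
noncomputable def phiForm [ModularFormClass U 𝒢 w] (u : U) (j : ℕ) :
    ModularForm 𝒮ℒ (w * ((idx 𝒢 - j : ℕ) : ℤ)) :=
  mkLevelOne (phiFun u j) _ (phiFun_slash u j) (mdiff_phiFun u j) (isBoundedAtImInfty_phiFun u j)

@[simp] lemma coe_phiForm [ModularFormClass U 𝒢 w] (u : U) (j : ℕ) :
    ⇑(phiForm u j) = phiFun u j := rfl

/-- The `j`-th coefficient (`j < μ`) of `∏_q (X - f_q)`, `f` a cusp form, as a level-one
cusp form (defined to be `0` for `j ≥ μ`). -/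
noncomputable def phiCusp [CuspFormClass F 𝒢 k] (f : F) (j : ℕ) :
    CuspForm 𝒮ℒ (k * ((idx 𝒢 - j : ℕ) : ℤ)) :=
  if hj : j < idx 𝒢 then
    mkLevelOneCusp (phiFun f j) _ (phiFun_slash f j) (mdiff_phiFun f j)
      (isZeroAtImInfty_phiFun f hj)
  else 0

lemma coe_phiCusp [CuspFormClass F 𝒢 k] (f : F) {j : ℕ} (hj : j < idx 𝒢) :
    ⇑(phiCusp f j) = phiFun f j := by
  rw [phiCusp, dif_pos hj]
  rfl

/-- `f` is a root of the monic polynomial `∑_j φ_j(f) X^j`. -/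
theorem charpoly_identity [SlashInvariantFormClass F 𝒢 k] (f : F) (τ : ℍ) :
    ∑ j ∈ range (idx 𝒢 + 1), phiFun f j τ * f τ ^ j = 0 := by
  have h := rootPoly_eval_self (conjVals f τ) (⟦(1 : 𝒮ℒ)⟧ : 𝒬)
  rw [conjVals_one, eval_eq_sum_range, rootPoly_natDegree] at h
  rw [← h]
  refine Finset.sum_congr rfl fun j hj => ?_
  rw [phiFun_apply f (Nat.lt_succ_iff.mp (Finset.mem_range.mp hj))]

/-- Every conjugate of `f` is a root of the same polynomial. -/
theorem charpoly_identity_conj [SlashInvariantFormClass F 𝒢 k] (f : F) (q : 𝒬) (τ : ℍ) :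
    ∑ j ∈ range (idx 𝒢 + 1), phiFun f j τ * quotientFunc f q τ ^ j = 0 := by
  have h := rootPoly_eval_self (conjVals f τ) q
  rw [eval_eq_sum_range, rootPoly_natDegree] at h
  rw [← h]
  refine Finset.sum_congr rfl fun j hj => ?_
  rw [phiFun_apply f (Nat.lt_succ_iff.mp (Finset.mem_range.mp hj))]
  rfl

/-! ### Weighted power sums (traces) -/

/-- `Tr(f u^b) = ∑_q f_q u_q^b`. -/
noncomputable def trPowFun [SlashInvariantFormClass U 𝒢 w] [SlashInvariantFormClass F 𝒢 k]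
    (u : U) (f : F) (b : ℕ) : ℍ → ℂ :=
  ∑ q : 𝒬, quotientFunc f q * quotientFunc u q ^ b

lemma trPowFun_apply [SlashInvariantFormClass U 𝒢 w] [SlashInvariantFormClass F 𝒢 k]
    (u : U) (f : F) (b : ℕ) (τ : ℍ) :
    trPowFun u f b τ = ∑ q : 𝒬, conjVals f τ q * conjVals u τ q ^ b := by
  simp [trPowFun, Finset.sum_apply, conjVals]

lemma trPowFun_slash [SlashInvariantFormClass U 𝒢 w] [SlashInvariantFormClass F 𝒢 k]
    (u : U) (f : F) (b : ℕ) (γ : SL(2, ℤ)) :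
    trPowFun u f b ∣[k + w * b] γ = trPowFun u f b := by
  unfold trPowFun
  rw [SlashAction.sum_slash]
  simp_rw [mul_slash_SL2, pow_slash_SL2, quotientFunc_slash_SL]
  exact Equiv.sum_comp (MulAction.toPerm (toSL γ)⁻¹)
    (fun q : 𝒬 => quotientFunc f q * quotientFunc u q ^ b)

lemma mdiff_trPowFun [ModularFormClass U 𝒢 w] [ModularFormClass F 𝒢 k]
    (u : U) (f : F) (b : ℕ) : MDiff (trPowFun u f b) := by
  unfold trPowFun
  refine MDifferentiable.sum fun q _ => ?_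
  exact (mdiff_quotientFunc f q).mul ((mdiff_quotientFunc u q).pow b)

lemma isBoundedAtImInfty_trPowFun [ModularFormClass U 𝒢 w] [ModularFormClass F 𝒢 k]
    (u : U) (f : F) (b : ℕ) : IsBoundedAtImInfty (trPowFun u f b) := by
  unfold trPowFun
  refine (boundedFilterSubmodule ℂ atImInfty).sum_mem fun q _ => ?_
  exact (isBoundedAtImInfty_quotientFunc f q).mul
    ((boundedFilterSubalgebra ℂ atImInfty).pow_mem (isBoundedAtImInfty_quotientFunc u q) b)

lemma isZeroAtImInfty_trPowFun [ModularFormClass U 𝒢 w] [CuspFormClass F 𝒢 k]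
    (u : U) (f : F) (b : ℕ) : IsZeroAtImInfty (trPowFun u f b) := by
  unfold trPowFun
  refine (zeroAtFilterSubmodule ℂ atImInfty).sum_mem fun q _ => ?_
  exact (isZeroAtImInfty_quotientFunc f q).mul_boundedAtFilter
    ((boundedFilterSubalgebra ℂ atImInfty).pow_mem (isBoundedAtImInfty_quotientFunc u q) b)

/-! ### The Lagrange coefficients `c_a` and the denominator `D` -/

/-- `c_a = ∑_{j ∈ [a+1, μ]} φ_j * Tr(f u^(j-a-1))`. -/
noncomputable def cFun [SlashInvariantFormClass U 𝒢 w] [SlashInvariantFormClass F 𝒢 k]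
    (u : U) (f : F) (a : ℕ) : ℍ → ℂ :=
  ∑ j ∈ Icc (a + 1) (idx 𝒢), phiFun u j * trPowFun u f (j - (a + 1))

lemma cFun_apply [SlashInvariantFormClass U 𝒢 w] [SlashInvariantFormClass F 𝒢 k]
    (u : U) (f : F) (a : ℕ) (τ : ℍ) :
    cFun u f a τ = ∑ j ∈ Icc (a + 1) (idx 𝒢), phiFun u j τ * trPowFun u f (j - (a + 1)) τ := by
  simp [cFun, Finset.sum_apply]

lemma cFun_slash [SlashInvariantFormClass U 𝒢 w] [SlashInvariantFormClass F 𝒢 k]
    (u : U) (f : F) (a : ℕ) (γ : SL(2, ℤ)) :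
    cFun u f a ∣[k + w * ((idx 𝒢 - 1 - a : ℕ) : ℤ)] γ = cFun u f a := by
  unfold cFun
  rw [SlashAction.sum_slash]
  refine Finset.sum_congr rfl fun j hj => ?_
  obtain ⟨h1, h2⟩ := Finset.mem_Icc.mp hj
  have hnat : idx 𝒢 - 1 - a = (idx 𝒢 - j) + (j - (a + 1)) := by omega
  have hw : k + w * ((idx 𝒢 - 1 - a : ℕ) : ℤ) =
      w * ((idx 𝒢 - j : ℕ) : ℤ) + (k + w * ((j - (a + 1) : ℕ) : ℤ)) := by
    rw [hnat]; push_cast; ring
  rw [hw, mul_slash_SL2, phiFun_slash, trPowFun_slash]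

lemma mdiff_cFun [ModularFormClass U 𝒢 w] [ModularFormClass F 𝒢 k]
    (u : U) (f : F) (a : ℕ) : MDiff (cFun u f a) := by
  unfold cFun
  refine MDifferentiable.sum fun j _ => ?_
  exact (mdiff_phiFun u j).mul (mdiff_trPowFun u f _)

lemma isBoundedAtImInfty_cFun [ModularFormClass U 𝒢 w] [ModularFormClass F 𝒢 k]
    (u : U) (f : F) (a : ℕ) : IsBoundedAtImInfty (cFun u f a) := by
  unfold cFun
  refine (boundedFilterSubmodule ℂ atImInfty).sum_mem fun j _ => ?_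
  exact (isBoundedAtImInfty_phiFun u j).mul (isBoundedAtImInfty_trPowFun u f _)

lemma isZeroAtImInfty_cFun [ModularFormClass U 𝒢 w] [CuspFormClass F 𝒢 k]
    (u : U) (f : F) (a : ℕ) : IsZeroAtImInfty (cFun u f a) := by
  unfold cFun
  refine (zeroAtFilterSubmodule ℂ atImInfty).sum_mem fun j _ => ?_
  exact (isBoundedAtImInfty_phiFun u j).mul_zeroAtFilter (isZeroAtImInfty_trPowFun u f _)

/-- The Lagrange coefficient `c_a` as a level-one modular form. -/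
noncomputable def cForm [ModularFormClass U 𝒢 w] [ModularFormClass F 𝒢 k]
    (u : U) (f : F) (a : ℕ) : ModularForm 𝒮ℒ (k + w * ((idx 𝒢 - 1 - a : ℕ) : ℤ)) :=
  mkLevelOne (cFun u f a) _ (cFun_slash u f a) (mdiff_cFun u f a) (isBoundedAtImInfty_cFun u f a)

@[simp] lemma coe_cForm [ModularFormClass U 𝒢 w] [ModularFormClass F 𝒢 k]
    (u : U) (f : F) (a : ℕ) : ⇑(cForm u f a) = cFun u f a := rfl

/-- The Lagrange coefficient `c_a` of a cusp form as a level-one cusp form. -/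
noncomputable def cCusp [ModularFormClass U 𝒢 w] [CuspFormClass F 𝒢 k]
    (u : U) (f : F) (a : ℕ) : CuspForm 𝒮ℒ (k + w * ((idx 𝒢 - 1 - a : ℕ) : ℤ)) :=
  mkLevelOneCusp (cFun u f a) _ (cFun_slash u f a) (mdiff_cFun u f a)
    (isZeroAtImInfty_cFun u f a)

@[simp] lemma coe_cCusp [ModularFormClass U 𝒢 w] [CuspFormClass F 𝒢 k]
    (u : U) (f : F) (a : ℕ) : ⇑(cCusp u f a) = cFun u f a := rfl

/-- `D = Φ'(u) = ∑_j j φ_j u^(j-1)`. -/
noncomputable def dFun [SlashInvariantFormClass U 𝒢 w] (u : U) : ℍ → ℂ :=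
  fun τ => ∑ j ∈ range (idx 𝒢 + 1), (j : ℂ) * phiFun u j τ * u τ ^ (j - 1)

open scoped Classical in
lemma dFun_eq_otherProd [SlashInvariantFormClass U 𝒢 w] (u : U) (τ : ℍ) :
    dFun u τ = otherProd (conjVals u τ) (⟦(1 : 𝒮ℒ)⟧ : 𝒬) := by
  rw [otherProd_eq_sum, conjVals_one, dFun]
  refine Finset.sum_congr rfl fun j hj => ?_
  rw [phiFun_apply u (Nat.lt_succ_iff.mp (Finset.mem_range.mp hj))]

open scoped Classical in
/-- `D = ∏_{q ≠ 1} (u - u_q)`. -/
lemma dFun_eq_prod [SlashInvariantFormClass U 𝒢 w] (u : U) (τ : ℍ) :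
    dFun u τ = ∏ q ∈ (Finset.univ : Finset 𝒬).erase ⟦(1 : 𝒮ℒ)⟧, (u τ - quotientFunc u q τ) := by
  rw [dFun_eq_otherProd, otherProd, conjVals_one]
  rfl

/-- **Lagrange interpolation over the cosets**: `f * D = ∑_{a<μ} u^a * c_a`. -/
theorem interp_identity [SlashInvariantFormClass U 𝒢 w] [SlashInvariantFormClass F 𝒢 k]
    (u : U) (f : F) (τ : ℍ) :
    f τ * dFun u τ = ∑ a ∈ range (idx 𝒢), u τ ^ a * cFun u f a τ := by
  classical
  have h := lagrange_identity (conjVals u τ) (conjVals f τ) (⟦(1 : 𝒮ℒ)⟧ : 𝒬)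
  rw [conjVals_one, conjVals_one, ← dFun_eq_otherProd] at h
  rw [h]
  refine Finset.sum_congr rfl fun a _ => ?_
  rw [cFun_apply]
  congr 1
  refine Finset.sum_congr rfl fun j hj => ?_
  rw [phiFun_apply u (Finset.mem_Icc.mp hj).2, trPowFun_apply]

/-- If `u → 1` and all other conjugates of `u` tend to `0` at `i∞`, then `D → 1` at `i∞`. -/
theorem tendsto_dFun [SlashInvariantFormClass U 𝒢 w] (u : U)
    (hu : Tendsto (u : ℍ → ℂ) atImInfty (𝓝 1))
    (hq : ∀ q : 𝒬, q ≠ ⟦(1 : 𝒮ℒ)⟧ → IsZeroAtImInfty (quotientFunc u q)) :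
    Tendsto (dFun u) atImInfty (𝓝 1) := by
  classical
  have h1 : dFun u = fun τ =>
      ∏ q ∈ (Finset.univ : Finset 𝒬).erase ⟦(1 : 𝒮ℒ)⟧, (u τ - quotientFunc u q τ) := by
    funext τ; exact dFun_eq_prod u τ
  rw [h1]
  have h2 : (1 : ℂ) = ∏ _q ∈ (Finset.univ : Finset 𝒬).erase ⟦(1 : 𝒮ℒ)⟧, ((1 : ℂ) - 0) := by simp
  rw [h2]
  refine tendsto_finsetProd _ fun q hq' => ?_
  exact hu.sub (hq q (Finset.ne_of_mem_erase hq'))

end Fermat.Agent.S23.Interp
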