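import Mathlib
import Fermat.Agent.S23.Interp.Main

/-!
Linear independence of `1, u, …, u^(μ-1)` over level-one forms (project S22/S23), provided the
conjugates of `u` are pairwise distinct functions.
-/

set_option autoImplicit false

open UpperHalfPlane ModularForm SlashInvariantForm Filter Matrix.SpecialLinearGroup Polynomial
open Finset
open scoped MatrixGroups ModularForm Manifold Topology

namespace Fermat.Agent.S23.Interp

/-- Holomorphic functions on the upper half-plane form an integral domain. -/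
theorem eq_zero_or_eq_zero_of_mul_eq_zero_of_mdiff {f g : ℍ → ℂ} (hf : MDiff f) (hg : MDiff g)
    (h : f * g = 0) : f = 0 ∨ g = 0 := by
  have hU : IsOpen {z : ℂ | 0 < z.im} := isOpen_upperHalfPlaneSet
  have hc : IsPreconnected {z : ℂ | 0 < z.im} := (convex_halfSpace_im_gt 0).isPreconnected
  have hf' := (UpperHalfPlane.mdifferentiable_iff.mp hf).analyticOnNhd hU
  have hg' := (UpperHalfPlane.mdifferentiable_iff.mp hg).analyticOnNhd hU
  have hfg : ∀ z ∈ {z : ℂ | 0 < z.im}, (f ∘ ofComplex) z * (g ∘ ofComplex) z = 0 := by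
    intro z _
    exact congrFun h (ofComplex z)
  rcases hf'.eq_zero_or_eq_zero_of_mul_eq_zero hg' hfg hc with h1 | h1
  · left
    funext τ
    have := h1 τ τ.2
    simpa using this
  · right
    funext τ
    have := h1 τ τ.2
    simpa using this

/-- A finite product of nonzero holomorphic functions on `ℍ` is nonzero. -/
theorem prod_ne_zero_of_mdiff {ι : Type} (s : Finset ι) (h : ι → ℍ → ℂ)
    (hh : ∀ i ∈ s, MDiff (h i)) (hne : ∀ i ∈ s, h i ≠ 0) : ∏ i ∈ s, h i ≠ 0 := by
  classical
  induction s using Finset.induction_on with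
  | empty =>
    simp only [Finset.prod_empty]
    intro h1
    have := congrFun h1 UpperHalfPlane.I
    simp at this
  | insert i t hi ih =>
    rw [Finset.prod_insert hi]
    intro h0
    have hmd : MDiff (∏ j ∈ t, h j) :=
      MDifferentiable.prod fun j hj => hh j (Finset.mem_insert_of_mem hj)
    rcases eq_zero_or_eq_zero_of_mul_eq_zero_of_mdiff (hh i (Finset.mem_insert_self i t)) hmd h0
      with h1 | h1
    · exact hne i (Finset.mem_insert_self i t) h1
    · exact ih (fun j hj => hh j (Finset.mem_insert_of_mem hj))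
        (fun j hj => hne j (Finset.mem_insert_of_mem hj)) h1

variable {𝒢 : Subgroup (GL (Fin 2) ℝ)} {U : Type*} [FunLike U ℍ ℂ] {w : ℤ}

local notation "𝒬" => 𝒮ℒ ⧸ (𝒢.subgroupOf 𝒮ℒ)

variable [𝒢.IsArithmetic]

/-- A relation `∑_a g_a u^a = 0` with level-one coefficients propagates to every conjugate of `u`. -/
theorem sum_mul_conj_pow_eq_zero [SlashInvariantFormClass U 𝒢 w] (u : U) (k₀ : ℤ)
    (g : ℕ → ℍ → ℂ) (n : ℕ)
    (hinv : ∀ a < n, ∀ γ : SL(2, ℤ), g a ∣[k₀ - w * a] γ = g a)
    (hsum : ∑ a ∈ range n, g a * (u : ℍ → ℂ) ^ a = 0) (q : 𝒬) :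
    ∑ a ∈ range n, g a * quotientFunc u q ^ a = 0 := by
  induction q using Quotient.inductionOn with
  | h r =>
    obtain ⟨γ, rfl⟩ := exists_toSL r
    rw [quotientFunc_toSL]
    have h1 : (∑ a ∈ range n, g a * (u : ℍ → ℂ) ^ a) ∣[k₀] γ⁻¹ = 0 := by
      rw [hsum]; exact SlashAction.zero_slash _ _
    rw [SlashAction.sum_slash] at h1
    rw [← h1]
    refine Finset.sum_congr rfl fun a ha => ?_
    have hw : k₀ = (k₀ - w * a) + w * a := by ring
    conv_rhs => rw [hw, mul_slash_SL2, pow_slash_SL2, hinv a (Finset.mem_range.mp ha)]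

/-- **Independence**: if the conjugates of `u` are pairwise distinct, a relation
`∑_{a<μ} g_a u^a = 0` with holomorphic level-one coefficients `g_a` (of weights `k₀ - w a`)
forces all `g_a = 0`. -/
theorem coeff_eq_zero_of_sum_eq_zero [ModularFormClass U 𝒢 w] (u : U)
    (hsep : ∀ q q' : 𝒬, q ≠ q' → quotientFunc u q ≠ quotientFunc u q')
    (k₀ : ℤ) (g : ℕ → ℍ → ℂ) (hg : ∀ a < idx 𝒢, MDiff (g a))
    (hinv : ∀ a < idx 𝒢, ∀ γ : SL(2, ℤ), g a ∣[k₀ - w * a] γ = g a)
    (hsum : ∑ a ∈ range (idx 𝒢), g a * (u : ℍ → ℂ) ^ a = 0) :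
    ∀ a < idx 𝒢, g a = 0 := by
  classical
  intro a ha
  -- the separating function
  let pairs : Finset (𝒬 × 𝒬) := (Finset.univ : Finset (𝒬 × 𝒬)).filter fun p => p.1 ≠ p.2
  let H : ℍ → ℂ := ∏ p ∈ pairs, (quotientFunc u p.1 - quotientFunc u p.2)
  have hHne : H ≠ 0 := by
    refine prod_ne_zero_of_mdiff pairs _ (fun p _ => ?_) (fun p hp => ?_)
    · exact (mdiff_quotientFunc u p.1).sub (mdiff_quotientFunc u p.2)
    · have : p.1 ≠ p.2 := (Finset.mem_filter.mp hp).2
      exact sub_ne_zero.mpr (hsep _ _ this)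
  have hHmd : MDiff H :=
    MDifferentiable.prod fun p _ => (mdiff_quotientFunc u p.1).sub (mdiff_quotientFunc u p.2)
  have hprod : H * g a = 0 := by
    funext τ
    by_cases hτ : H τ = 0
    · simp [hτ]
    · have hinj : Function.Injective (conjVals u τ) := by
        intro q q' hqq
        by_contra hne
        apply hτ
        have hmem : (q, q') ∈ pairs := by simp [pairs, hne]
        simp only [H, Finset.prod_apply]
        refine Finset.prod_eq_zero hmem ?_
        simp only [Pi.sub_apply]
        exact sub_eq_zero.mpr hqq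
      have hvan := vandermonde_vanish (conjVals u τ) hinj (fun b => g b τ) (fun q => by
        have := congrFun (sum_mul_conj_pow_eq_zero u k₀ g (idx 𝒢) hinv hsum q) τ
        simp only [Finset.sum_apply, Pi.mul_apply, Pi.pow_apply, Pi.zero_apply] at this
        exact this)
      have := hvan a ha
      simp [this]
  rcases eq_zero_or_eq_zero_of_mul_eq_zero_of_mdiff hHmd (hg a ha) hprod with h1 | h1
  · exact absurd h1 hHne
  · exact h1

end Fermat.Agent.S23.Interp
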